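import Mathlib

/-!
# Evaluation of power series at nilpotent elements

For a commutative `𝒪`-algebra `A` and a finite family `t : σ → A` of nilpotent elements, we
construct the `𝒪`-algebra homomorphism `evalNilp t ht : MvPowerSeries σ 𝒪 →ₐ[𝒪] A` sending
`X i` to `t i`. It is obtained from Mathlib's `MvPowerSeries.aeval` for the discrete
topologies on `𝒪` and `A`.
-/

set_option autoImplicit false
set_option linter.style.haveILetI false

namespace Fermat.Agent.S53.LimitRing

section EvalNilp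

variable {σ 𝒪 A : Type*} [Finite σ] [CommRing 𝒪] [CommRing A] [Algebra 𝒪 A]

/-- Evaluation of power series with coefficients in `𝒪` at a finite family of nilpotent elements
of an `𝒪`-algebra `A`, as an `𝒪`-algebra homomorphism. -/
noncomputable def evalNilp (t : σ → A) (ht : ∀ i, IsNilpotent (t i)) :
    MvPowerSeries σ 𝒪 →ₐ[𝒪] A :=
  letI : UniformSpace 𝒪 := ⊥
  letI : UniformSpace A := ⊥
  haveI : DiscreteTopology 𝒪 := ⟨rfl⟩
  haveI : DiscreteTopology A := ⟨rfl⟩
  haveI : ContinuousSMul 𝒪 A := ⟨continuous_of_discreteTopology⟩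
  MvPowerSeries.aeval (σ := σ) (R := 𝒪) (S := A) (a := t)
    ⟨fun s => by
      obtain ⟨n, hn⟩ := ht s
      refine tendsto_atTop_of_eventually_const (i₀ := n) fun m hm => ?_
      exact pow_eq_zero_of_le hm hn, by
      rw [Filter.cofinite_eq_bot]
      exact Filter.tendsto_bot⟩

/-- On polynomials, `evalNilp` is the usual evaluation. -/
theorem evalNilp_coe (t : σ → A) (ht : ∀ i, IsNilpotent (t i)) (p : MvPolynomial σ 𝒪) :
    evalNilp (𝒪 := 𝒪) t ht (p : MvPowerSeries σ 𝒪) = MvPolynomial.aeval t p := by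
  letI : UniformSpace 𝒪 := ⊥
  letI : UniformSpace A := ⊥
  haveI : DiscreteTopology 𝒪 := ⟨rfl⟩
  haveI : DiscreteTopology A := ⟨rfl⟩
  haveI : ContinuousSMul 𝒪 A := ⟨continuous_of_discreteTopology⟩
  exact MvPowerSeries.aeval_coe _ p

@[simp] theorem evalNilp_X (t : σ → A) (ht : ∀ i, IsNilpotent (t i)) (i : σ) :
    evalNilp (𝒪 := 𝒪) t ht (MvPowerSeries.X i) = t i := by
  rw [← MvPolynomial.coe_X, evalNilp_coe, MvPolynomial.aeval_X]

theorem evalNilp_C (t : σ → A) (ht : ∀ i, IsNilpotent (t i)) (a : 𝒪) :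
    evalNilp (𝒪 := 𝒪) t ht (MvPowerSeries.C a) = algebraMap 𝒪 A a := by
  rw [← MvPolynomial.coe_C, evalNilp_coe, MvPolynomial.aeval_C]

/-- `evalNilp` is compatible with algebra homomorphisms of the target. -/
theorem comp_evalNilp {B : Type*} [CommRing B] [Algebra 𝒪 B] (ψ : A →ₐ[𝒪] B) (t : σ → A)
    (ht : ∀ i, IsNilpotent (t i)) :
    ψ.comp (evalNilp (𝒪 := 𝒪) t ht) = evalNilp (fun i => ψ (t i)) (fun i => (ht i).map ψ) := by
  letI : UniformSpace 𝒪 := ⊥
  letI : UniformSpace A := ⊥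
  letI : UniformSpace B := ⊥
  haveI : DiscreteTopology 𝒪 := ⟨rfl⟩
  haveI : DiscreteTopology A := ⟨rfl⟩
  haveI : DiscreteTopology B := ⟨rfl⟩
  haveI : ContinuousSMul 𝒪 A := ⟨continuous_of_discreteTopology⟩
  haveI : ContinuousSMul 𝒪 B := ⟨continuous_of_discreteTopology⟩
  exact MvPowerSeries.comp_aeval _ (ε := ψ) continuous_of_discreteTopology

end EvalNilp

end Fermat.Agent.S53.LimitRing
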