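import Mathlib
import Fermat.Agent.S53.LimitRing
import Fermat.Agent.S53.LimitRing.EvalNilp

/-!
# Constructor of `IsProSystem` from generators of the maximal ideals

If `A` is a finite local `𝒪`-algebra with residue field generated by `𝒪` whose maximal ideal is
generated by `d` elements modulo `𝔪_𝒪`, then the evaluation at these elements is a surjection
`MvPowerSeries (Fin d) 𝒪 →ₐ[𝒪] A` (Nakayama over the image). This gives the constructor
`IsProSystem.of_generators`.
-/

set_option autoImplicit false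
set_option linter.style.haveILetI false

namespace Fermat.Agent.S53.LimitRing

open IsLocalRing

section Surj

variable {𝒪 : Type*} [CommRing 𝒪] [IsLocalRing 𝒪] {A : Type*} [CommRing A] [Algebra 𝒪 A]
  [IsLocalRing A]

/-- Non-units of an Artinian local ring are nilpotent. -/
theorem isNilpotent_of_mem_nonunits [IsArtinianRing A] {x : A} (hx : x ∈ nonunits A) :
    IsNilpotent x := by
  have h := IsArtinianRing.isNilpotent_jacobson_bot (R := A)
  rw [IsLocalRing.jacobson_eq_maximalIdeal ⊥ bot_ne_top] at h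
  obtain ⟨n, hn⟩ := h
  refine ⟨n, ?_⟩
  have h1 : x ^ n ∈ maximalIdeal A ^ n := Ideal.pow_mem_pow hx n
  rw [hn] at h1
  exact h1

/-- If `𝒪` surjects onto the residue field of `A`, then `𝔪_𝒪` maps into `𝔪_A`. -/
theorem algebraMap_mem_nonunits_of_residue
    (hres : ∀ x : A, ∃ a : 𝒪, x - algebraMap 𝒪 A a ∈ nonunits A) {π : 𝒪}
    (hπ : π ∈ maximalIdeal 𝒪) : algebraMap 𝒪 A π ∈ nonunits A := by
  set f : 𝒪 →+* ResidueField A := (IsLocalRing.residue A).comp (algebraMap 𝒪 A) with hf_def
  have hf : Function.Surjective f := by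
    intro y
    obtain ⟨x, rfl⟩ := IsLocalRing.residue_surjective y
    obtain ⟨a, ha⟩ := hres x
    refine ⟨a, ?_⟩
    have h0 : residue A (x - algebraMap 𝒪 A a) = 0 := (residue_eq_zero_iff _).mpr ha
    rw [map_sub, sub_eq_zero] at h0
    exact h0.symm
  have hmax : (RingHom.ker f).IsMaximal := RingHom.ker_isMaximal_of_surjective f hf
  have hker : RingHom.ker f = maximalIdeal 𝒪 := IsLocalRing.eq_maximalIdeal hmax
  have hπ' : π ∈ RingHom.ker f := hker ▸ hπ
  rw [RingHom.mem_ker] at hπ'
  exact (residue_eq_zero_iff _).mp hπ'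

/-- If `𝒪` surjects onto the residue field of `A`, then `𝒪 → A` is a local homomorphism. -/
theorem isLocalHom_algebraMap_of_residue
    (hres : ∀ x : A, ∃ a : 𝒪, x - algebraMap 𝒪 A a ∈ nonunits A) :
    IsLocalHom (algebraMap 𝒪 A) := by
  refine ⟨fun a ha => ?_⟩
  by_contra hna
  exact algebraMap_mem_nonunits_of_residue hres (π := a) hna ha

/-- **Surjectivity of evaluation** (Nakayama): for a finite local `𝒪`-algebra `A` whose residue
field is generated by `𝒪` and whose maximal ideal is generated by the nilpotent elements `t i`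
together with `𝔪_𝒪`, the evaluation `MvPowerSeries (Fin d) 𝒪 → A` at `t` is surjective. -/
theorem evalNilp_surjective_of_generators [Finite A] {σ : Type*} [Finite σ]
    (hres : ∀ x : A, ∃ a : 𝒪, x - algebraMap 𝒪 A a ∈ nonunits A)
    (t : σ → A) (htn : ∀ i, IsNilpotent (t i))
    (hgen : ∀ x ∈ nonunits A,
      x ∈ Ideal.span (Set.range t) ⊔ (maximalIdeal 𝒪).map (algebraMap 𝒪 A)) :
    Function.Surjective (evalNilp (𝒪 := 𝒪) t htn) := by
  classical
  set φ := evalNilp (𝒪 := 𝒪) t htn with hφ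
  let B : Subalgebra 𝒪 A := φ.range
  have htB : ∀ i, t i ∈ B := fun i => ⟨MvPowerSeries.X i, evalNilp_X t htn i⟩
  have hnil : ∀ b : B, IsNilpotent (b : A) → b ∈ nilradical B := by
    intro b hb
    rw [mem_nilradical]
    exact (IsNilpotent.map_iff (f := B.val) Subtype.val_injective).mp hb
  have hJ : nilradical B ≤ Ideal.jacobson ⊥ := Ideal.radical_le_jacobson
  have hfg : (⊤ : Submodule B A).FG := Module.Finite.fg_top
  have key : (⊤ : Submodule B A) ≤
      LinearMap.range (Algebra.linearMap B A) ⊔ (nilradical B) • ⊤ := by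
    intro x _
    obtain ⟨a, ha⟩ := hres x
    have hx : x = algebraMap 𝒪 A a + (x - algebraMap 𝒪 A a) := by ring
    rw [hx]
    refine Submodule.add_mem_sup ?_ ?_
    · exact ⟨algebraMap 𝒪 B a, rfl⟩
    · rw [Ideal.smul_top_eq_map, Submodule.restrictScalars_mem]
      have hmem := hgen _ ha
      refine (sup_le ?_ ?_ : _ ≤ Ideal.map (algebraMap B A) (nilradical B)) hmem
      · rw [Ideal.span_le]
        rintro _ ⟨i, rfl⟩
        exact Ideal.mem_map_of_mem (algebraMap B A) (x := ⟨t i, htB i⟩) (hnil _ (htn i))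
      · rw [Ideal.map_le_iff_le_comap]
        intro π hπ
        rw [Ideal.mem_comap]
        have h1 : IsNilpotent (algebraMap 𝒪 A π) :=
          isNilpotent_of_mem_nonunits (algebraMap_mem_nonunits_of_residue hres hπ)
        exact Ideal.mem_map_of_mem (algebraMap B A) (x := algebraMap 𝒪 B π) (hnil _ h1)
  have hle := Submodule.le_of_le_smul_of_le_jacobson_bot hfg hJ key
  intro x
  obtain ⟨b, hb⟩ := hle (Submodule.mem_top : x ∈ ⊤)
  obtain ⟨f, hf⟩ := b.2
  exact ⟨f, hf.trans hb⟩

end Surj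

section Ctor

variable {𝒪 : Type*} [CommRing 𝒪] [IsLocalRing 𝒪] {P : Type*} [CommRing P] [Algebra 𝒪 P]

/-- Constructor for `IsProSystem` from generators of the maximal ideals. -/
theorem IsProSystem.of_generators (F : Set (Ideal P)) (d : ℕ)
    (nonempty : F.Nonempty) (inf_mem : ∀ I ∈ F, ∀ J ∈ F, I ⊓ J ∈ F)
    (finite : ∀ I ∈ F, Finite (P ⧸ I))
    (isLocalRing : ∀ I ∈ F, IsLocalRing (P ⧸ I))
    (residue : ∀ I ∈ F, ∀ x : P ⧸ I, ∃ a : 𝒪, x - algebraMap 𝒪 (P ⧸ I) a ∈ nonunits (P ⧸ I))
    (gen : ∀ I ∈ F, ∃ t : Fin d → P ⧸ I, (∀ i, t i ∈ nonunits (P ⧸ I)) ∧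
      ∀ x ∈ nonunits (P ⧸ I), x ∈ Ideal.span (Set.range t) ⊔
        (maximalIdeal 𝒪).map (algebraMap 𝒪 (P ⧸ I))) :
    IsProSystem 𝒪 F d where
  nonempty := nonempty
  inf_mem := inf_mem
  finite := finite
  ne_top := by
    intro I hI h
    haveI := isLocalRing I hI
    have h1 : Subsingleton (P ⧸ I) := Ideal.Quotient.subsingleton_iff.mpr h
    exact not_subsingleton (P ⧸ I) h1
  gen := by
    intro I hI
    haveI := isLocalRing I hI
    haveI := finite I hI
    obtain ⟨t, ht, hgen⟩ := gen I hI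
    exact ⟨evalNilp t (fun i => isNilpotent_of_mem_nonunits (ht i)),
      evalNilp_surjective_of_generators (residue I hI) t _ hgen⟩

end Ctor

end Fermat.Agent.S53.LimitRing
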