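import Mathlib

/-!
# A Cantor intersection lemma for adically complete rings with finite quotients

Let `Λ` be a ring which is `𝔪`-adically complete and such that all `Λ ⧸ 𝔪 ^ n` are finite.
For a downward directed family of open ideals `K i` and a compatible family of cosets `c i + K i`
there is an element of `Λ` lying in all the cosets; in other words `Λ → lim Λ ⧸ K i` is
surjective.
-/

set_option autoImplicit false
set_option linter.unusedSectionVars false
set_option linter.style.haveILetI false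

namespace Fermat.Agent.S53.LimitRing

/-- A downward directed family of nonempty subsets of a finite type has nonempty intersection. -/
theorem nonempty_iInter_of_codirected_of_finite {Q : Type*} [Finite Q] {ι : Type*} [Preorder ι]
    [IsCodirectedOrder ι] [Nonempty ι] (S : ι → Set Q) (hS : ∀ i j, i ≤ j → S i ⊆ S j)
    (hne : ∀ i, (S i).Nonempty) : (⋂ i, S i).Nonempty := by
  classical
  by_contra h
  rw [Set.not_nonempty_iff_eq_empty] at h
  have h1 : ∀ q : Q, ∃ i, q ∉ S i := by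
    intro q
    by_contra hq
    push Not at hq
    have hmem : q ∈ ⋂ i, S i := Set.mem_iInter.mpr hq
    rw [h] at hmem
    exact hmem
  choose f hf using h1
  obtain ⟨l, hl⟩ := Finite.exists_ge f
  obtain ⟨q, hq⟩ := hne l
  exact hf q (hS l (f q) (hl q) hq)

section Cantor

variable {Λ : Type*} [CommRing Λ] (𝔪 : Ideal Λ)
  {ι : Type*} [Preorder ι] [IsCodirectedOrder ι] [Nonempty ι]
  (K : ι → Ideal Λ) (c : ι → Λ)

/-- `z` is `n`-good if it is congruent modulo `𝔪 ^ n` to an element of every coset `c i + K i`. -/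
def CantorGood (n : ℕ) (z : Λ) : Prop := ∀ i, ∃ y : Λ, y - c i ∈ K i ∧ y - z ∈ 𝔪 ^ n

theorem cantorGood_zero (z : Λ) : CantorGood 𝔪 K c 0 z := fun i =>
  ⟨c i, by rw [sub_self]; exact (K i).zero_mem, by rw [pow_zero, Ideal.one_eq_top]; trivial⟩

variable {𝔪 K c}

theorem exists_cantorGood_succ (hfin : ∀ n, Finite (Λ ⧸ 𝔪 ^ n))
    (hK : ∀ i j, i ≤ j → K i ≤ K j) (hc : ∀ i j, i ≤ j → c i - c j ∈ K j)
    {n : ℕ} {z : Λ} (hz : CantorGood 𝔪 K c n z) :
    ∃ z' : Λ, CantorGood 𝔪 K c (n + 1) z' ∧ z' - z ∈ 𝔪 ^ n := by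
  haveI := hfin (n + 1)
  let S : ι → Set (Λ ⧸ 𝔪 ^ (n + 1)) := fun i =>
    Ideal.Quotient.mk (𝔪 ^ (n + 1)) '' {y | y - c i ∈ K i ∧ y - z ∈ 𝔪 ^ n}
  have hS : ∀ i j, i ≤ j → S i ⊆ S j := by
    rintro i j hij _ ⟨y, ⟨hy1, hy2⟩, rfl⟩
    refine ⟨y, ⟨?_, hy2⟩, rfl⟩
    have : y - c j = (y - c i) + (c i - c j) := by ring
    rw [this]
    exact (K j).add_mem (hK i j hij hy1) (hc i j hij)
  have hne : ∀ i, (S i).Nonempty := by
    intro i
    obtain ⟨y, hy1, hy2⟩ := hz i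
    exact ⟨_, ⟨y, ⟨hy1, hy2⟩, rfl⟩⟩
  obtain ⟨q, hq⟩ := nonempty_iInter_of_codirected_of_finite S hS hne
  obtain ⟨z', rfl⟩ := Ideal.Quotient.mk_surjective q
  rw [Set.mem_iInter] at hq
  have key : ∀ i, ∃ y : Λ, y - c i ∈ K i ∧ y - z ∈ 𝔪 ^ n ∧ y - z' ∈ 𝔪 ^ (n + 1) := by
    intro i
    obtain ⟨y, ⟨hy1, hy2⟩, hy3⟩ := hq i
    exact ⟨y, hy1, hy2, Ideal.Quotient.eq.mp hy3⟩
  refine ⟨z', fun i => ?_, ?_⟩
  · obtain ⟨y, hy1, -, hy3⟩ := key i
    exact ⟨y, hy1, hy3⟩
  · obtain ⟨i⟩ := ‹Nonempty ι›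
    obtain ⟨y, -, hy2, hy3⟩ := key i
    have : z' - z = (y - z) - (y - z') := by ring
    rw [this]
    exact (𝔪 ^ n).sub_mem hy2 (Ideal.pow_le_pow_right (Nat.le_succ n) hy3)

/-- **Cantor intersection**: if `Λ` is `𝔪`-adically complete with finite quotients `Λ ⧸ 𝔪 ^ n`,
then for a downward directed family of open ideals `K i` and a compatible family of cosets
`c i + K i` there is an element lying in all the cosets. -/
theorem exists_forall_sub_mem_of_compatible [IsPrecomplete 𝔪 Λ]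
    (hfin : ∀ n, Finite (Λ ⧸ 𝔪 ^ n))
    (hK : ∀ i j, i ≤ j → K i ≤ K j) (hopen : ∀ i, ∃ n, 𝔪 ^ n ≤ K i)
    (hc : ∀ i j, i ≤ j → c i - c j ∈ K j) :
    ∃ x : Λ, ∀ i, x - c i ∈ K i := by
  classical
  -- the sequence of good approximations
  let step : ∀ n : ℕ, {z : Λ // CantorGood 𝔪 K c n z} → {z : Λ // CantorGood 𝔪 K c (n + 1) z} :=
    fun n z => ⟨(exists_cantorGood_succ hfin hK hc z.2).choose,
      (exists_cantorGood_succ hfin hK hc z.2).choose_spec.1⟩
  have hstep : ∀ (n : ℕ) (z : {z : Λ // CantorGood 𝔪 K c n z}), (step n z).1 - z.1 ∈ 𝔪 ^ n :=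
    fun n z => (exists_cantorGood_succ hfin hK hc z.2).choose_spec.2
  let seq : ∀ n : ℕ, {z : Λ // CantorGood 𝔪 K c n z} :=
    fun n => Nat.rec ⟨0, cantorGood_zero 𝔪 K c 0⟩ (fun n z => step n z) n
  have hseq : ∀ n, (seq (n + 1)).1 - (seq n).1 ∈ 𝔪 ^ n := fun n => hstep n (seq n)
  have hcauchy : ∀ {m n : ℕ}, m ≤ n → (seq n).1 - (seq m).1 ∈ 𝔪 ^ m := by
    intro m n hmn
    induction n, hmn using Nat.le_induction with
    | base => rw [sub_self]; exact (𝔪 ^ m).zero_mem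
    | succ n hmn ih =>
      have : (seq (n + 1)).1 - (seq m).1
          = ((seq (n + 1)).1 - (seq n).1) + ((seq n).1 - (seq m).1) := by ring
      rw [this]
      exact (𝔪 ^ m).add_mem (Ideal.pow_le_pow_right hmn (hseq n)) ih
  obtain ⟨L, hL⟩ := IsPrecomplete.prec ‹IsPrecomplete 𝔪 Λ›
    (f := fun n => (seq n).1) (by
      intro m n hmn
      rw [SModEq.sub_mem, smul_eq_mul, Ideal.mul_top]
      have := hcauchy hmn
      rw [← neg_sub]
      exact (𝔪 ^ m).neg_mem this)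
  have hL' : ∀ n, (seq n).1 - L ∈ 𝔪 ^ n := by
    intro n
    have := hL n
    rw [SModEq.sub_mem, smul_eq_mul, Ideal.mul_top] at this
    exact this
  refine ⟨L, fun i => ?_⟩
  obtain ⟨n, hn⟩ := hopen i
  obtain ⟨y, hy1, hy2⟩ := (seq n).2 i
  have : L - c i = (y - c i) - (y - (seq n).1) - ((seq n).1 - L) := by ring
  rw [this]
  exact (K i).sub_mem ((K i).sub_mem hy1 (hn hy2)) (hn (hL' n))

end Cantor

end Fermat.Agent.S53.LimitRing
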