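import Mathlib.CategoryTheory.CofilteredSystem

/-!
# S53 helper (LimitRing): a codirected inverse system of nonempty finite types has a
compatible family (non-categorical wrapper around Mathlib's
`nonempty_sections_of_finite_cofiltered_system`).
-/

set_option autoImplicit false

universe u v

namespace Fermat.Agent.S53.LimitRing

open CategoryTheory

/-- A codirected system of nonempty finite types has a compatible family. -/
theorem exists_compatible_of_finite_codirected {ι : Type u} [Preorder ι] [IsDirected ι (· ≥ ·)]
    (X : ι → Type v) [∀ i, Finite (X i)] [∀ i, Nonempty (X i)]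
    (f : ∀ i j : ι, i ≤ j → X i → X j)
    (f_id : ∀ (i : ι) (x : X i), f i i le_rfl x = x)
    (f_comp : ∀ (i j k : ι) (h₁ : i ≤ j) (h₂ : j ≤ k) (x : X i),
      f j k h₂ (f i j h₁ x) = f i k (h₁.trans h₂) x) :
    ∃ s : ∀ i, X i, ∀ (i j : ι) (h : i ≤ j), f i j h (s i) = s j := by
  let G : ι ⥤ Type v :=
    { obj := X
      map := fun {i j} g => TypeCat.ofHom (f i j (leOfHom g))
      map_id := by
        intro i
        ext x
        exact f_id i x
      map_comp := by
        intro i j k g₁ g₂
        ext x
        exact (f_comp i j k (leOfHom g₁) (leOfHom g₂) x).symm }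
  have : ∀ j : ι, Finite (G.obj j) := fun j => inferInstanceAs (Finite (X j))
  have : ∀ j : ι, Nonempty (G.obj j) := fun j => inferInstanceAs (Nonempty (X j))
  obtain ⟨s, hs⟩ := nonempty_sections_of_finite_cofiltered_system G
  exact ⟨s, fun i j h => hs (homOfLE h)⟩

end Fermat.Agent.S53.LimitRing
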