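import Mathlib
import Fermat.Agent.S53.LimitRing
import Fermat.Agent.S53.LimitRingLocal
import Fermat.Agent.S53.LimitRing.Cofiltered

/-!
# Continuity of the limit ring

For a family `F` of ideals of `P`, closed under finite intersections, with all `P ⧸ I` finite:
every finitely generated ideal of finite index of `limitRing 𝒪 F` contains the kernel of some
projection (`exists_ker_proj_le_of_fg`). Consequently, when the limit ring is Noetherian (e.g. a
quotient of a power series ring), every algebra homomorphism from the limit ring to a finite ring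
factors through some projection, and two such homomorphisms agreeing on the image of `P` are
equal.
-/

set_option autoImplicit false

namespace Fermat.Agent.S53.LimitRing

open IsLocalRing

section Finite

/-- A (co)directed family of subsets of a finite type has a least element. -/
theorem exists_forall_subset_of_finite_directed {S : Type*} [Finite S] {ι : Type*} [Nonempty ι]
    (T : ι → Set S) (hT : ∀ i j, ∃ l, T l ⊆ T i ∧ T l ⊆ T j) : ∃ l, ∀ i, T l ⊆ T i := by
  classical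
  let l := Function.argmin (fun l => (T l).ncard)
  refine ⟨l, fun i => ?_⟩
  obtain ⟨l', h1, h2⟩ := hT l i
  have hle : (T l).ncard ≤ (T l').ncard := Function.argmin_le (fun l => (T l).ncard) l'
  have heq : T l' = T l := Set.eq_of_subset_of_ncard_le h1 hle (Set.toFinite _)
  rw [← heq]
  exact h2

end Finite

section Core

variable {𝒪 : Type*} [CommRing 𝒪] {P : Type*} [CommRing P] [Algebra 𝒪 P] {F : Set (Ideal P)}

/-- **Continuity (core)**: if `F` is nonempty, closed under intersections, and all `P ⧸ I`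
(`I ∈ F`) are finite, then every finitely generated ideal of finite index of the limit ring
contains the kernel of some projection. -/
theorem exists_ker_proj_le_of_fg (hne : F.Nonempty) (hinf : ∀ I ∈ F, ∀ J ∈ F, I ⊓ J ∈ F)
    (hfin : ∀ I ∈ F, Finite (P ⧸ I)) (𝔞 : Ideal (limitRing 𝒪 F)) (h𝔞 : 𝔞.FG)
    [Finite (limitRing 𝒪 F ⧸ 𝔞)] : ∃ I : F, RingHom.ker (proj 𝒪 F I) ≤ 𝔞 := by
  classical
  have : Nonempty F := hne.to_subtype
  -- Step 1: the images of the kernels in the finite ring `R ⧸ 𝔞` have a least element.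
  obtain ⟨I₀, hI₀⟩ := exists_forall_subset_of_finite_directed
    (fun I : F => (Ideal.Quotient.mk 𝔞) '' (RingHom.ker (proj 𝒪 F I) : Set (limitRing 𝒪 F)))
    (fun I J => by
      refine ⟨⟨I.1 ⊓ J.1, hinf _ I.2 _ J.2⟩, ?_, ?_⟩
      · exact Set.image_mono (ker_proj_le_of_le (F := F) 𝒪 (I := ⟨I.1 ⊓ J.1, hinf _ I.2 _ J.2⟩)
          (J := I) inf_le_left)
      · exact Set.image_mono (ker_proj_le_of_le (F := F) 𝒪 (I := ⟨I.1 ⊓ J.1, hinf _ I.2 _ J.2⟩)
          (J := J) inf_le_right))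
  refine ⟨I₀, fun x hx => ?_⟩
  -- generators of `𝔞`
  obtain ⟨r, g, hg⟩ := Submodule.fg_iff_exists_fin_generating_family.mp h𝔞
  -- Step 2: for every `I`, the image of `x` in `P ⧸ I` is a combination of the images of `g`.
  have hstep : ∀ I : F, ∃ a : Fin r → P ⧸ I.1,
      ∑ j, a j * proj 𝒪 F I (g j) = proj 𝒪 F I x := by
    intro I
    have hmem : Ideal.Quotient.mk 𝔞 x ∈
        (Ideal.Quotient.mk 𝔞) '' (RingHom.ker (proj 𝒪 F I) : Set (limitRing 𝒪 F)) :=
      hI₀ I ⟨x, hx, rfl⟩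
    obtain ⟨y, hy, hyx⟩ := hmem
    have hxy : x - y ∈ 𝔞 := by
      rw [← Ideal.Quotient.eq]
      exact hyx.symm
    have hxy' : x - y ∈ Ideal.span (Set.range g) := by
      have : Ideal.span (Set.range g) = 𝔞 := hg
      rw [this]; exact hxy
    obtain ⟨c, hc⟩ := Ideal.mem_span_range_iff_exists_fun.mp hxy'
    refine ⟨fun j => proj 𝒪 F I (c j), ?_⟩
    have hy0 : proj 𝒪 F I y = 0 := hy
    calc ∑ j, proj 𝒪 F I (c j) * proj 𝒪 F I (g j)
        = proj 𝒪 F I (∑ j, c j * g j) := by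
          rw [map_sum]
          exact Finset.sum_congr rfl (fun j _ => (map_mul _ _ _).symm)
      _ = proj 𝒪 F I (x - y) := by rw [hc]
      _ = proj 𝒪 F I x := by rw [map_sub, hy0, sub_zero]
  -- Step 3: the inverse system of the finite nonempty solution sets has a compatible family.
  let X : F → Type _ := fun I =>
    {a : Fin r → P ⧸ I.1 // ∑ j, a j * proj 𝒪 F I (g j) = proj 𝒪 F I x}
  have hXfin : ∀ I : F, Finite (X I) := by
    intro I
    have : Finite (P ⧸ I.1) := hfin I.1 I.2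
    exact Subtype.finite
  have hXne : ∀ I : F, Nonempty (X I) := by
    intro I
    obtain ⟨a, ha⟩ := hstep I
    exact ⟨⟨a, ha⟩⟩
  have hdir : IsDirected F (· ≥ ·) :=
    ⟨fun I J => ⟨⟨I.1 ⊓ J.1, hinf _ I.2 _ J.2⟩,
      show I.1 ⊓ J.1 ≤ I.1 from inf_le_left, show I.1 ⊓ J.1 ≤ J.1 from inf_le_right⟩⟩
  let f : ∀ I J : F, I ≤ J → X I → X J := fun I J h a =>
    ⟨fun j => Ideal.Quotient.factor (show I.1 ≤ J.1 from h) (a.1 j), by
      have h2 := congrArg (Ideal.Quotient.factor (show I.1 ≤ J.1 from h)) a.2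
      rw [map_sum, factor_proj] at h2
      rw [← h2]
      refine Finset.sum_congr rfl (fun j _ => ?_)
      rw [map_mul, factor_proj]⟩
  have f_id : ∀ (I : F) (a : X I), f I I le_rfl a = a := by
    intro I a
    apply Subtype.ext
    funext j
    change Ideal.Quotient.factor _ (a.1 j) = a.1 j
    obtain ⟨p, hp⟩ := Ideal.Quotient.mk_surjective (a.1 j)
    rw [← hp, Ideal.Quotient.factor_mk]
  have f_comp : ∀ (I J K : F) (h₁ : I ≤ J) (h₂ : J ≤ K) (a : X I),
      f J K h₂ (f I J h₁ a) = f I K (h₁.trans h₂) a := by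
    intro I J K h₁ h₂ a
    apply Subtype.ext
    funext j
    change Ideal.Quotient.factor _ (Ideal.Quotient.factor _ (a.1 j)) =
      Ideal.Quotient.factor _ (a.1 j)
    obtain ⟨p, hp⟩ := Ideal.Quotient.mk_surjective (a.1 j)
    rw [← hp, Ideal.Quotient.factor_mk, Ideal.Quotient.factor_mk, Ideal.Quotient.factor_mk]
  obtain ⟨s, hs⟩ := exists_compatible_of_finite_codirected X f f_id f_comp
  -- Step 4: assemble the coefficients in the limit ring.
  let c : Fin r → limitRing 𝒪 F := fun j =>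
    ⟨fun I => (s I).1 j, by
      rw [mem_limitRing]
      intro I J h
      have := hs I J h
      exact congrFun (congrArg Subtype.val this) j⟩
  have hxc : x = ∑ j, c j * g j := by
    apply ext
    intro I
    rw [map_sum]
    rw [← (s I).2]
    refine Finset.sum_congr rfl (fun j _ => ?_)
    rw [map_mul]
    rfl
  have hmem : x ∈ Ideal.span (Set.range g) := by
    rw [hxc]
    exact Ideal.sum_mem _ (fun j _ => Ideal.mul_mem_left _ _ (Ideal.subset_span ⟨j, rfl⟩))
  have : Ideal.span (Set.range g) = 𝔞 := hg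
  rw [← this]
  exact hmem

end Core

section Noetherian

variable {𝒪 : Type*} [CommRing 𝒪] {P : Type*} [CommRing P] [Algebra 𝒪 P] {F : Set (Ideal P)}

/-- Continuity for a Noetherian limit ring: every ideal of finite index contains the kernel of
some projection. -/
theorem exists_ker_proj_le_of_isNoetherianRing [IsNoetherianRing (limitRing 𝒪 F)]
    (hne : F.Nonempty) (hinf : ∀ I ∈ F, ∀ J ∈ F, I ⊓ J ∈ F) (hfin : ∀ I ∈ F, Finite (P ⧸ I))
    (𝔞 : Ideal (limitRing 𝒪 F)) [Finite (limitRing 𝒪 F ⧸ 𝔞)] :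
    ∃ I : F, RingHom.ker (proj 𝒪 F I) ≤ 𝔞 :=
  exists_ker_proj_le_of_fg hne hinf hfin 𝔞 (IsNoetherian.noetherian 𝔞)

/-- An algebra homomorphism from the limit ring which kills the kernel of a projection factors
through that projection. -/
theorem exists_factor_of_ker_proj_le {A : Type*} [Ring A] [Algebra 𝒪 A]
    (φ : limitRing 𝒪 F →ₐ[𝒪] A) (I : F) (h : RingHom.ker (proj 𝒪 F I) ≤ RingHom.ker φ) :
    ∃ ψ : P ⧸ I.1 →ₐ[𝒪] A, φ = ψ.comp (proj 𝒪 F I) := by
  have hsurj : Function.Surjective (proj 𝒪 F I) := proj_surjective 𝒪 F I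
  let e : (limitRing 𝒪 F ⧸ RingHom.ker (proj 𝒪 F I)) ≃ₐ[𝒪] P ⧸ I.1 :=
    Ideal.quotientKerAlgEquivOfSurjective hsurj
  let l : (limitRing 𝒪 F ⧸ RingHom.ker (proj 𝒪 F I)) →ₐ[𝒪] A :=
    Ideal.Quotient.liftₐ (RingHom.ker (proj 𝒪 F I)) φ (fun a ha => h ha)
  refine ⟨l.comp e.symm.toAlgHom, ?_⟩
  refine AlgHom.ext fun x => ?_
  change φ x = l (e.symm (proj 𝒪 F I x))
  have : e.symm (proj 𝒪 F I x) = Ideal.Quotient.mk _ x := by
    rw [AlgEquiv.symm_apply_eq]
    rfl
  rw [this]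
  rfl

/-- Every algebra homomorphism from a Noetherian limit ring to a finite ring factors through some
projection. -/
theorem exists_factor_of_finite_of_isNoetherianRing [IsNoetherianRing (limitRing 𝒪 F)]
    (hne : F.Nonempty) (hinf : ∀ I ∈ F, ∀ J ∈ F, I ⊓ J ∈ F) (hfin : ∀ I ∈ F, Finite (P ⧸ I))
    {A : Type*} [Ring A] [Algebra 𝒪 A] [Finite A] (φ : limitRing 𝒪 F →ₐ[𝒪] A) :
    ∃ (I : F) (ψ : P ⧸ I.1 →ₐ[𝒪] A), φ = ψ.comp (proj 𝒪 F I) := by
  have : Finite (limitRing 𝒪 F ⧸ RingHom.ker φ) :=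
    Finite.of_injective _ (Ideal.kerLiftAlg_injective φ)
  obtain ⟨I, hI⟩ := exists_ker_proj_le_of_isNoetherianRing hne hinf hfin (RingHom.ker φ)
  obtain ⟨ψ, hψ⟩ := exists_factor_of_ker_proj_le φ I hI
  exact ⟨I, ψ, hψ⟩

/-- Two algebra homomorphisms from a Noetherian limit ring to a finite ring which agree on the
image of `P` are equal. -/
theorem algHom_ext_of_finite_of_isNoetherianRing [IsNoetherianRing (limitRing 𝒪 F)]
    (hne : F.Nonempty) (hinf : ∀ I ∈ F, ∀ J ∈ F, I ⊓ J ∈ F) (hfin : ∀ I ∈ F, Finite (P ⧸ I))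
    {A : Type*} [Ring A] [Algebra 𝒪 A] [Finite A] {φ φ' : limitRing 𝒪 F →ₐ[𝒪] A}
    (h : ∀ p : P, φ (ofP 𝒪 F p) = φ' (ofP 𝒪 F p)) : φ = φ' := by
  obtain ⟨I, ψ, hψ⟩ :=
    exists_factor_of_finite_of_isNoetherianRing hne hinf hfin (φ.prod φ')
  refine AlgHom.ext fun x => ?_
  obtain ⟨p, hp⟩ := exists_proj_eq_proj_ofP I x
  have h1 : (φ.prod φ') x = (φ.prod φ') (ofP 𝒪 F p) := by
    rw [hψ]
    change ψ (proj 𝒪 F I x) = ψ (proj 𝒪 F I (ofP 𝒪 F p))
    rw [hp]
  have h2 := congrArg Prod.fst h1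
  have h3 := congrArg Prod.snd h1
  change φ x = φ (ofP 𝒪 F p) at h2
  change φ' x = φ' (ofP 𝒪 F p) at h3
  rw [h2, h3, h]

end Noetherian

section OfSurj

variable {𝒪 : Type*} [CommRing 𝒪] [IsLocalRing 𝒪] [IsNoetherianRing 𝒪]
  {P : Type*} [CommRing P] [Algebra 𝒪 P] {F : Set (Ideal P)} {d : ℕ}

omit [IsLocalRing 𝒪] in
/-- Continuity: every ideal of finite index contains the kernel of some projection. -/
theorem IsProSystem.exists_ker_proj_le_of_surj (hF : IsProSystem 𝒪 F d)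
    (γ : MvPowerSeries (Fin d) 𝒪 →ₐ[𝒪] limitRing 𝒪 F) (hγ : Function.Surjective γ)
    (𝔞 : Ideal (limitRing 𝒪 F)) [Finite (limitRing 𝒪 F ⧸ 𝔞)] :
    ∃ I : F, RingHom.ker (proj 𝒪 F I) ≤ 𝔞 := by
  have : IsNoetherianRing (limitRing 𝒪 F) := isNoetherianRing_of_surj γ hγ
  exact exists_ker_proj_le_of_isNoetherianRing hF.nonempty hF.inf_mem hF.finite 𝔞

/-- Continuity: the `𝔪`-adic topology of the limit ring is the limit topology. -/
theorem IsProSystem.exists_ker_proj_le_maximalIdeal_pow_of_surj [Finite (ResidueField 𝒪)]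
    (hF : IsProSystem 𝒪 F d)
    (γ : MvPowerSeries (Fin d) 𝒪 →ₐ[𝒪] limitRing 𝒪 F) (hγ : Function.Surjective γ)
    [IsLocalRing (limitRing 𝒪 F)] (n : ℕ) :
    ∃ I : F, RingHom.ker (proj 𝒪 F I) ≤ maximalIdeal (limitRing 𝒪 F) ^ n := by
  have : Finite (limitRing 𝒪 F ⧸ maximalIdeal (limitRing 𝒪 F) ^ n) :=
    finite_quotient_maximalIdeal_pow_of_surj γ hγ n
  exact hF.exists_ker_proj_le_of_surj γ hγ _

omit [IsLocalRing 𝒪] in
/-- Every algebra homomorphism from the limit ring to a finite ring factors through some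
projection. -/
theorem IsProSystem.exists_factor_of_finite_of_surj (hF : IsProSystem 𝒪 F d)
    (γ : MvPowerSeries (Fin d) 𝒪 →ₐ[𝒪] limitRing 𝒪 F) (hγ : Function.Surjective γ)
    {A : Type*} [Ring A] [Algebra 𝒪 A] [Finite A] (φ : limitRing 𝒪 F →ₐ[𝒪] A) :
    ∃ (I : F) (ψ : P ⧸ I.1 →ₐ[𝒪] A), φ = ψ.comp (proj 𝒪 F I) := by
  have : IsNoetherianRing (limitRing 𝒪 F) := isNoetherianRing_of_surj γ hγ
  exact exists_factor_of_finite_of_isNoetherianRing hF.nonempty hF.inf_mem hF.finite φ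

omit [IsLocalRing 𝒪] in
/-- Two algebra homomorphisms from the limit ring to a finite ring which agree on the image
of `P` are equal. -/
theorem IsProSystem.algHom_ext_of_finite_of_surj (hF : IsProSystem 𝒪 F d)
    (γ : MvPowerSeries (Fin d) 𝒪 →ₐ[𝒪] limitRing 𝒪 F) (hγ : Function.Surjective γ)
    {A : Type*} [Ring A] [Algebra 𝒪 A] [Finite A] {φ φ' : limitRing 𝒪 F →ₐ[𝒪] A}
    (h : ∀ p : P, φ (ofP 𝒪 F p) = φ' (ofP 𝒪 F p)) : φ = φ' := by
  have : IsNoetherianRing (limitRing 𝒪 F) := isNoetherianRing_of_surj γ hγ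
  exact algHom_ext_of_finite_of_isNoetherianRing hF.nonempty hF.inf_mem hF.finite h

end OfSurj

end Fermat.Agent.S53.LimitRing
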